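import Fermat.Agent.H81.ValFrob
import Mathlib.RingTheory.Invariant.Profinite
import Mathlib.FieldTheory.KrullTopology
import Mathlib.FieldTheory.Galois.Infinite
import Mathlib.FieldTheory.Galois.Profinite
import Mathlib.FieldTheory.IsSepClosed
import Mathlib.FieldTheory.IsAlgClosed.AlgebraicClosure
import Mathlib.FieldTheory.Finite.Basic

/-!
# Existence of Frobenius elements in `Gal(ℚ̄/ℚ)`

`exists_isFrobeniusAt`: for every valuation subring `A` of `AlgebraicClosure ℚ` lying over a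
prime `ℓ` there is `σ : Gal(ℚ̄/ℚ)` with `A.IsFrobeniusAt σ ℓ`.

`exists_liesOverPrime_isFrobeniusAt`: for every prime `ℓ` there are `A` over `ℓ` and a Frobenius
element at `A`.
-/

set_option autoImplicit false
set_option linter.style.haveILetI false

namespace Fermat.Agent.H81

open IsLocalRing
open scoped Pointwise

local notation "Qbar" => AlgebraicClosure ℚ
local notation "Γ" => (AlgebraicClosure ℚ ≃ₐ[ℚ] AlgebraicClosure ℚ)
local notation "𝓑" => integralClosure ℤ (AlgebraicClosure ℚ)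

theorem isAlgebraic_rat_Qbar : Algebra.IsAlgebraic ℚ Qbar := AlgebraicClosure.isAlgebraic ℚ

theorem isAlgClosure_rat_Qbar : IsAlgClosure ℚ Qbar :=
  haveI := isAlgebraic_rat_Qbar
  ⟨inferInstance, inferInstance⟩

theorem normal_rat_Qbar : Normal ℚ Qbar :=
  haveI := isAlgClosure_rat_Qbar
  IsAlgClosure.normal ℚ Qbar

theorem isGalois_rat_Qbar : IsGalois ℚ Qbar :=
  haveI := isAlgebraic_rat_Qbar
  haveI := normal_rat_Qbar
  ⟨⟩

theorem isAlgebraic_int_Qbar (x : Qbar) : IsAlgebraic ℤ x :=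
  haveI := isAlgebraic_rat_Qbar
  (IsFractionRing.isAlgebraic_iff ℤ ℚ Qbar).mpr (Algebra.IsAlgebraic.isAlgebraic x)

/-- The ideal of algebraic integers which are non-units of `A`. -/
def nonunitIdeal (A : ValuationSubring Qbar) : Ideal 𝓑 where
  carrier := {b | A.valuation (b : Qbar) < 1}
  add_mem' := fun {a b} ha hb => by
    simp only [Set.mem_ofPred_eq] at *
    exact A.valuation.map_add_lt ha hb
  zero_mem' := by simp
  smul_mem' := fun c b hb => by
    simp only [Set.mem_ofPred_eq, smul_eq_mul] at *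
    have hc : A.valuation (c : Qbar) ≤ 1 :=
      (A.valuation_le_one_iff _).mpr (mem_valuationSubring_of_isIntegral_int A c.2)
    calc A.valuation ((c * b : 𝓑) : Qbar) = A.valuation (c : Qbar) * A.valuation (b : Qbar) := by
          push_cast; rw [map_mul]
      _ ≤ 1 * A.valuation (b : Qbar) := mul_le_mul_left hc _
      _ < 1 := by rwa [one_mul]

theorem mem_nonunitIdeal (A : ValuationSubring Qbar) (b : 𝓑) :
    b ∈ nonunitIdeal A ↔ A.valuation (b : Qbar) < 1 := Iff.rfl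

theorem nonunitIdeal_isPrime (A : ValuationSubring Qbar) : (nonunitIdeal A).IsPrime := by
  refine ⟨?_, ?_⟩
  · intro h
    have : (1 : 𝓑) ∈ nonunitIdeal A := by rw [h]; trivial
    rw [mem_nonunitIdeal] at this
    simp at this
  · intro a b hab
    rw [mem_nonunitIdeal] at hab
    by_contra hcon
    push Not at hcon
    have ha : A.valuation (a : Qbar) = 1 := le_antisymm
      ((A.valuation_le_one_iff _).mpr (mem_valuationSubring_of_isIntegral_int A a.2))
      (not_lt.mp hcon.1)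
    have hb : A.valuation (b : Qbar) = 1 := le_antisymm
      ((A.valuation_le_one_iff _).mpr (mem_valuationSubring_of_isIntegral_int A b.2))
      (not_lt.mp hcon.2)
    have : A.valuation ((a * b : 𝓑) : Qbar) = 1 := by
      push_cast
      rw [map_mul, ha, hb, one_mul]
    rw [this] at hab
    exact lt_irrefl _ hab

theorem nonunitIdeal_liesOver (A : ValuationSubring Qbar) (ℓ : ℕ) (hℓ : ℓ.Prime)
    (hA : A.LiesOverPrime ℓ) : (nonunitIdeal A).LiesOver (Ideal.span {(ℓ : ℤ)}) := by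
  constructor
  have hmax : (Ideal.span {(ℓ : ℤ)}).IsMaximal :=
    PrincipalIdealRing.isMaximal_of_irreducible
      (Nat.prime_iff_prime_int.mp hℓ).irreducible
  have hle : Ideal.span {(ℓ : ℤ)} ≤ (nonunitIdeal A).under ℤ := by
    rw [Ideal.span_le, Set.singleton_subset_iff]
    change algebraMap ℤ 𝓑 (ℓ : ℤ) ∈ nonunitIdeal A
    rw [mem_nonunitIdeal]
    have : ((algebraMap ℤ 𝓑 (ℓ : ℤ) : 𝓑) : Qbar) = (ℓ : Qbar) := by simp
    rw [this]
    exact A.mem_nonunits_iff.mp hA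
  have hprime := nonunitIdeal_isPrime A
  have hne : (nonunitIdeal A).under ℤ ≠ ⊤ := by
    intro h
    have h1 : (1 : ℤ) ∈ (nonunitIdeal A).under ℤ := by rw [h]; trivial
    have h2 : algebraMap ℤ 𝓑 1 ∈ nonunitIdeal A := h1
    rw [map_one] at h2
    exact hprime.ne_top ((Ideal.eq_top_iff_one _).mpr h2)
  exact hmax.eq_of_le hne hle

theorem isInvariant_int_integralClosure : Algebra.IsInvariant ℤ 𝓑 Γ := by
  haveI := isGalois_rat_Qbar
  constructor
  intro b hb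
  have h1 : ∀ f : Γ, f (b : Qbar) = b := fun f => congrArg Subtype.val (hb f)
  obtain ⟨r, hr⟩ := (InfiniteGalois.mem_range_algebraMap_iff_fixed (b : Qbar)).mpr h1
  have hint : IsIntegral ℤ r := by
    have := b.2
    rw [← hr] at this
    exact (isIntegral_algebraMap_iff (algebraMap ℚ Qbar).injective).mp this
  obtain ⟨n, hn⟩ := IsIntegrallyClosed.algebraMap_eq_of_integral hint
  refine ⟨n, Subtype.ext ?_⟩
  rw [← hr, ← hn]
  simp

theorem continuousSMul_integralClosure :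
    @ContinuousSMul Γ 𝓑 _ _ ⊥ := by
  letI : TopologicalSpace 𝓑 := ⊥
  haveI : DiscreteTopology 𝓑 := ⟨rfl⟩
  haveI := isAlgebraic_rat_Qbar
  rw [continuousSMul_iff_stabilizer_isOpen]
  intro b
  have : (MulAction.stabilizer Γ b : Set Γ) = (MulAction.stabilizer Γ (b : Qbar) : Set Γ) := by
    ext g
    simp only [SetLike.mem_coe, MulAction.mem_stabilizer_iff, Subtype.ext_iff]
    rfl
  rw [this]
  exact stabilizer_isOpen_of_isIntegral _

/-- The Frobenius automorphism of the residue ring `𝓑 ⧸ Q` over `ℤ ⧸ (ℓ)`. -/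
theorem exists_frobenius_algEquiv (A : ValuationSubring Qbar) (ℓ : ℕ) (hℓ : ℓ.Prime)
    (hA : A.LiesOverPrime ℓ) :
    haveI := nonunitIdeal_liesOver A ℓ hℓ hA
    ∃ φ : (𝓑 ⧸ nonunitIdeal A) ≃ₐ[ℤ ⧸ Ideal.span {(ℓ : ℤ)}] (𝓑 ⧸ nonunitIdeal A),
      ∀ x, φ x = x ^ ℓ := by
  haveI := nonunitIdeal_liesOver A ℓ hℓ hA
  haveI := nonunitIdeal_isPrime A
  haveI : Fact ℓ.Prime := ⟨hℓ⟩
  have hℓQ : ((ℓ : ℕ) : 𝓑 ⧸ nonunitIdeal A) = 0 := by
    have : ((ℓ : ℕ) : 𝓑 ⧸ nonunitIdeal A) = Ideal.Quotient.mk (nonunitIdeal A) (ℓ : 𝓑) := by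
      simp
    rw [this, Ideal.Quotient.eq_zero_iff_mem, mem_nonunitIdeal]
    have : (((ℓ : 𝓑)) : Qbar) = (ℓ : Qbar) := by simp
    rw [this]
    exact A.mem_nonunits_iff.mp hA
  haveI : CharP (𝓑 ⧸ nonunitIdeal A) ℓ := (CharP.charP_iff_prime_eq_zero hℓ).mpr hℓQ
  have hinj : Function.Injective (frobenius (𝓑 ⧸ nonunitIdeal A) ℓ) :=
    frobenius_inj (𝓑 ⧸ nonunitIdeal A) ℓ
  have hsurj : Function.Surjective (frobenius (𝓑 ⧸ nonunitIdeal A) ℓ) := by
    intro x
    obtain ⟨b, rfl⟩ := Ideal.Quotient.mk_surjective x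
    obtain ⟨c, hc⟩ := IsAlgClosed.exists_pow_nat_eq (b : Qbar) hℓ.pos
    have hcint : IsIntegral ℤ c := by
      refine IsIntegral.of_pow hℓ.pos ?_
      rw [hc]
      exact b.2
    refine ⟨Ideal.Quotient.mk _ ⟨c, hcint⟩, ?_⟩
    rw [frobenius_def, ← map_pow]
    congr 1
    exact Subtype.ext hc
  have hcomm : ∀ r : ℤ ⧸ Ideal.span {(ℓ : ℤ)},
      frobenius (𝓑 ⧸ nonunitIdeal A) ℓ (algebraMap _ _ r) = algebraMap _ _ r := by
    intro r
    obtain ⟨n, rfl⟩ := Ideal.Quotient.mk_surjective r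
    rw [frobenius_def, ← map_pow, ← map_pow]
    congr 1
    rw [Ideal.Quotient.eq, Ideal.mem_span_singleton]
    have h1 : ((n ^ ℓ - n : ℤ) : ZMod ℓ) = 0 := by
      push_cast
      rw [ZMod.pow_card, sub_self]
    exact (ZMod.intCast_zmod_eq_zero_iff_dvd _ ℓ).mp h1
  let f : (𝓑 ⧸ nonunitIdeal A) →ₐ[ℤ ⧸ Ideal.span {(ℓ : ℤ)}] (𝓑 ⧸ nonunitIdeal A) :=
    { toRingHom := frobenius (𝓑 ⧸ nonunitIdeal A) ℓ
      commutes' := hcomm }
  exact ⟨AlgEquiv.ofBijective f ⟨hinj, hsurj⟩, fun x => rfl⟩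

/-- **Existence of Frobenius elements.** For every valuation subring `A` of `ℚ̄` over a prime
`ℓ` there is a Frobenius element at `A` in `Gal(ℚ̄/ℚ)`. -/
theorem exists_isFrobeniusAt (A : ValuationSubring Qbar) (ℓ : ℕ) (hℓ : ℓ.Prime)
    (hA : A.LiesOverPrime ℓ) :
    ∃ σ : Γ, A.IsFrobeniusAt σ ℓ := by
  letI : TopologicalSpace 𝓑 := ⊥
  haveI : DiscreteTopology 𝓑 := ⟨rfl⟩
  haveI : ContinuousSMul Γ 𝓑 := continuousSMul_integralClosure
  haveI := isGalois_rat_Qbar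
  haveI := isAlgebraic_rat_Qbar
  haveI := isInvariant_int_integralClosure
  haveI := nonunitIdeal_liesOver A ℓ hℓ hA
  haveI := nonunitIdeal_isPrime A
  obtain ⟨φ, hφ⟩ := exists_frobenius_algEquiv A ℓ hℓ hA
  obtain ⟨g, hg⟩ := Ideal.Quotient.stabilizerHom_surjective_of_profinite (G := Γ)
    (Ideal.span {(ℓ : ℤ)}) (nonunitIdeal A) φ
  refine ⟨g.1, isFrobeniusAt_of_integral isAlgebraic_int_Qbar A g.1 ℓ ?_ ?_⟩
  · intro b hb
    have hstab : g.1 • nonunitIdeal A = nonunitIdeal A := g.2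
    have h := Ideal.smul_mem_pointwise_smul_iff (a := g.1) (S := nonunitIdeal A)
      (x := (⟨b, hb⟩ : 𝓑))
    rw [hstab] at h
    exact h.symm
  · intro b hb
    have h1 : Ideal.Quotient.stabilizerHom (nonunitIdeal A) (Ideal.span {(ℓ : ℤ)}) Γ g
        (Ideal.Quotient.mk _ (⟨b, hb⟩ : 𝓑)) = (Ideal.Quotient.mk _ (⟨b, hb⟩ : 𝓑)) ^ ℓ := by
      rw [hg, hφ]
    rw [Ideal.Quotient.stabilizerHom_apply, ← map_pow, Ideal.Quotient.eq] at h1
    exact h1

/-- For every prime `ℓ` there are a valuation subring of `ℚ̄` over `ℓ` and a Frobenius element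
at it. -/
theorem exists_liesOverPrime_isFrobeniusAt (ℓ : ℕ) (hℓ : ℓ.Prime) :
    ∃ (A : ValuationSubring Qbar) (σ : Γ), A.LiesOverPrime ℓ ∧ A.IsFrobeniusAt σ ℓ := by
  obtain ⟨A, hA⟩ := exists_valuationSubring_liesOverPrime (K := Qbar) ℓ hℓ
  obtain ⟨σ, hσ⟩ := exists_isFrobeniusAt A ℓ hℓ hA
  exact ⟨A, σ, hA, hσ⟩

end Fermat.Agent.H81
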