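import Fermat.Agent.H81.IntegralFraction
import Fermat.Prelude.Def_EllipticCurve_FrobeniusTrace

/-!
# Frobenius elements at valuation subrings of `AlgebraicClosure ℚ`: the valuation half

* `exists_valuationSubring_liesOverPrime`: every prime has a valuation subring above it.
* `isFrobeniusAt_of_integral`: an automorphism which preserves "being a non-unit of `A`" on
  algebraic integers, and which is congruent to `b ↦ b ^ ℓ` on algebraic integers modulo the
  non-units of `A`, is a Frobenius element at `A` (in the sense of the prelude).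
-/

set_option autoImplicit false

namespace Fermat.Agent.H81

open IsLocalRing
open scoped Pointwise

section General

variable {K : Type*} [Field K]

/-- Elements integral over `ℤ` lie in every valuation subring. -/
theorem mem_valuationSubring_of_isIntegral_int (A : ValuationSubring K) {b : K}
    (hb : IsIntegral ℤ b) : b ∈ A := by
  obtain ⟨p, hp, hpb⟩ := hb
  have : IsIntegral A.toSubring b := by
    refine ⟨p.map (algebraMap ℤ A.toSubring), hp.map _, ?_⟩
    rw [← Polynomial.aeval_def, Polynomial.aeval_map_algebraMap]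
    exact hpb
  have h2 : IsIntegrallyClosedIn A.toSubring K :=
    inferInstanceAs (IsIntegrallyClosedIn A K)
  obtain ⟨a, ha⟩ := IsIntegrallyClosedIn.algebraMap_eq_of_integral this
  rw [← ha]
  exact a.2

/-- Every prime number lies in the non-units of some valuation subring of a field of
characteristic zero. -/
theorem exists_valuationSubring_liesOverPrime [CharZero K] (ℓ : ℕ) (hℓ : ℓ.Prime) :
    ∃ A : ValuationSubring K, A.LiesOverPrime ℓ := by
  have hmem : (ℓ : K) ∈ (⊥ : Subring K) := natCast_mem _ ℓ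
  have hne : Ideal.span {(⟨(ℓ : K), hmem⟩ : (⊥ : Subring K))} ≠ ⊤ := by
    rw [Ne, Ideal.span_singleton_eq_top]
    intro hu
    obtain ⟨⟨b, hb⟩, hb1⟩ := isUnit_iff_exists_inv.mp hu
    obtain ⟨m, rfl⟩ := Subring.mem_bot.mp hb
    have h1 : ((ℓ : ℤ) * m : K) = 1 := by
      have := congrArg Subtype.val hb1
      simpa using this
    have h2 : (ℓ : ℤ) * m = 1 := by exact_mod_cast h1
    have h3 : (ℓ : ℤ) ∣ 1 := Dvd.intro _ h2
    have h4 : ℓ ∣ 1 := by exact_mod_cast h3
    exact hℓ.one_lt.ne' (Nat.dvd_one.mp h4)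
  obtain ⟨B, -, hB⟩ := Ideal.image_subset_nonunits_valuationSubring _ hne
  refine ⟨B, hB ⟨⟨(ℓ : K), hmem⟩, Ideal.subset_span rfl, rfl⟩⟩

end General

section Frobenius

variable {F L : Type*} [Field F] [Field L] [Algebra F L] [CharZero L]

/-- If `σ` preserves the set of algebraic integers which are non-units of `A`, then `σ` maps
`A` into `A`. -/
theorem map_mem_of_integral (halg : ∀ x : L, IsAlgebraic ℤ x)
    (A : ValuationSubring L) (σ : L ≃ₐ[F] L)
    (h1 : ∀ b : L, IsIntegral ℤ b → A.valuation (σ b) < 1 → A.valuation b < 1)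
    {x : L} (hx : x ∈ A) : σ x ∈ A := by
  obtain ⟨y, z, hy, hz, hvy, hxyz⟩ := exists_integral_fraction A hx (halg x)
  have hσy : IsIntegral ℤ (σ y) := hy.map (σ : L →ₐ[F] L).toRingHom.toIntAlgHom
  have hσz : IsIntegral ℤ (σ z) := hz.map (σ : L →ₐ[F] L).toRingHom.toIntAlgHom
  have hvσy : A.valuation (σ y) = 1 := by
    refine le_antisymm ((A.valuation_le_one_iff _).mpr
      (mem_valuationSubring_of_isIntegral_int A hσy)) ?_
    by_contra hlt
    push Not at hlt
    have := h1 y hy hlt
    rw [hvy] at this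
    exact lt_irrefl _ this
  have hvσz : A.valuation (σ z) ≤ 1 :=
    (A.valuation_le_one_iff _).mpr (mem_valuationSubring_of_isIntegral_int A hσz)
  rw [← A.valuation_le_one_iff]
  have : σ x * σ y = σ z := by rw [← map_mul, hxyz]
  have h3 : A.valuation (σ x) * A.valuation (σ y) = A.valuation (σ z) := by
    rw [← map_mul, this]
  rw [hvσy, mul_one] at h3
  rw [h3]
  exact hvσz

/-- **Valuation half of the existence of Frobenius elements.** -/
theorem isFrobeniusAt_of_integral (halg : ∀ x : L, IsAlgebraic ℤ x)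
    (A : ValuationSubring L) (σ : L ≃ₐ[F] L) (q : ℕ)
    (h1 : ∀ b : L, IsIntegral ℤ b → (A.valuation b < 1 ↔ A.valuation (σ b) < 1))
    (h2 : ∀ b : L, IsIntegral ℤ b → A.valuation (σ b - b ^ q) < 1) :
    A.IsFrobeniusAt σ q := by
  have hfw : ∀ x ∈ A, σ x ∈ A := fun x hx =>
    map_mem_of_integral halg A σ (fun b hb h => (h1 b hb).mpr h) hx
  have hbw : ∀ x ∈ A, σ⁻¹ x ∈ A := fun x hx => by
    refine map_mem_of_integral halg A σ⁻¹ (fun b hb h => ?_) hx
    have hb' : IsIntegral ℤ (σ⁻¹ b) := hb.map ((σ⁻¹ : L ≃ₐ[F] L) : L →ₐ[F] L).toRingHom.toIntAlgHom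
    have := (h1 (σ⁻¹ b) hb').mp h
    have e : σ (σ⁻¹ b) = b := by
      change (σ * σ⁻¹) b = b
      rw [mul_inv_cancel]
      rfl
    rwa [e] at this
  have hσ : σ ∈ A.decompositionSubgroup F := by
    rw [MulAction.mem_stabilizer_iff]
    ext x
    rw [ValuationSubring.mem_pointwise_smul_iff_inv_smul_mem]
    constructor
    · intro hx
      have := hfw _ hx
      have e : σ (σ⁻¹ • x) = x := by
        change (σ * σ⁻¹) x = x
        rw [mul_inv_cancel]
        rfl
      rwa [e] at this
    · intro hx
      exact hbw x hx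
  refine ⟨hσ, fun xbar => ?_⟩
  obtain ⟨a, rfl⟩ := IsLocalRing.residue_surjective xbar
  set g : A.decompositionSubgroup F := ⟨σ, hσ⟩ with hg
  have hcoe : ∀ c : A, ((g • c : A) : L) = σ (c : L) := fun c => rfl
  -- the congruence on integral elements
  have hint : ∀ (b : A), IsIntegral ℤ (b : L) →
      IsLocalRing.residue A (g • b) = (IsLocalRing.residue A b) ^ q := by
    intro b hb
    rw [← map_pow, ← sub_eq_zero, ← map_sub, IsLocalRing.residue_eq_zero_iff,
      ValuationSubring.valuation_lt_one_iff]
    have : ((g • b - b ^ q : A) : L) = σ (b : L) - (b : L) ^ q := by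
      push_cast
      rw [hcoe]
    rw [this]
    exact h2 _ hb
  obtain ⟨y, z, hy, hz, hvy, hxyz⟩ := exists_integral_fraction A a.2 (halg a)
  set y' : A := ⟨y, mem_valuationSubring_of_isIntegral_int A hy⟩ with hy'
  set z' : A := ⟨z, mem_valuationSubring_of_isIntegral_int A hz⟩ with hz'
  have hayz : a * y' = z' := Subtype.ext hxyz
  have hyunit : IsUnit y' := (A.valuation_eq_one_iff y').mpr hvy
  have hyres : IsLocalRing.residue A y' ≠ 0 := by
    rw [Ne, IsLocalRing.residue_eq_zero_iff]
    exact fun h => (IsLocalRing.mem_maximalIdeal _).mp h hyunit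
  have e1 : IsLocalRing.residue A (g • a) * IsLocalRing.residue A (g • y') =
      IsLocalRing.residue A (g • z') := by
    rw [← map_mul, ← smul_mul', hayz]
  rw [hint y' hy, hint z' hz, ← hayz, map_mul, mul_pow] at e1
  rw [← IsLocalRing.ResidueField.residue_smul]
  exact mul_right_cancel₀ (pow_ne_zero q hyres) e1

end Frobenius

end Fermat.Agent.H81
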