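import Fermat.Agent.H81.FieldLim
import Fermat.Agent.H41.MatU

set_option autoImplicit false
set_option linter.unusedSectionVars false

noncomputable section

namespace Fermat.Agent.H81

open Fermat.Agent.H78 IsLocalRing Matrix

section fields

variable {O : Type} [CommRing O] [IsLocalRing O]
variable {G : Gauge O}
variable {𝒟 : ∀ ⦃A : Type⦄ [CommRing A] [IsLocalRing A] [Algebra O A], GaloisRepAdic A → Prop}

lemma isArtinianTestAlgebra_residueField (O : Type) [CommRing O] [IsLocalRing O] :
    GaloisRep.IsArtinianTestAlgebra O (ResidueField O) := by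
  refine ⟨?_, ?_, inferInstance⟩
  · show IsLocalHom (IsLocalRing.residue O)
    infer_instance
  · exact (IsLocalRing.residue_surjective (R := ResidueField O)).comp
      (IsLocalRing.residue_surjective (R := O))

theorem defPred_base {ρbar : ResidualGaloisRep (ResidueField O)}
    {β : Module.Basis (Fin 2) (ResidueField O) ρbar.V} (hG : G.IsFor ρbar β)
    (h𝒟 : GaloisRep.IsDeformationCondition O 𝒟)
    (hbar : 𝒟 (GaloisRepAdic.ofResidualGaloisRep ρbar)) :
    defPred G 𝒟 (fun f => algebraMap O (ResidueField O) (G.basePt f)) := by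
  obtain ⟨r, hr, ⟨e⟩, hrσ⟩ :=
    exists_ofMatrix_isEquiv (A := ResidueField O) (GaloisRepAdic.ofResidualGaloisRep ρbar) β
  have hent : ∀ σ a b, r σ a b = IsLocalRing.residue O (G.lift σ a b) := by
    intro σ a b
    rw [hrσ, hG σ a b]
    rfl
  refine ⟨r, hr, fun σ a b => hent σ a b, ⟨fun σ a b => ?_, ?_, ?_, ?_⟩, ?_⟩
  · rw [hent]
    show IsLocalRing.residue O (G.lift σ a b) - IsLocalRing.residue O (G.lift σ a b) ∈ _
    rw [sub_self]
    exact Ideal.zero_mem _
  · rw [hent, G.ga_col0, map_zero]
  · rw [hent, G.ga_col1, map_one]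
  · rw [hent]
    rfl
  · exact h𝒟.of_isEquiv (isArtinianTestAlgebra_residueField O) ⟨e.symm⟩ hbar

end fields

end Fermat.Agent.H81
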