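import Fermat.Agent.H81.Fields1

set_option autoImplicit false
set_option linter.unusedSectionVars false

noncomputable section

namespace Fermat.Agent.H81

open Fermat.Agent.H78 IsLocalRing Matrix

section fields

variable {O : Type} [CommRing O] [IsLocalRing O]
variable {G : Gauge O}
variable {𝒟 : ∀ ⦃A : Type⦄ [CommRing A] [IsLocalRing A] [Algebra O A], GaloisRepAdic A → Prop}

lemma eq_zero_of_forall_mem_pow {A : Type} [CommRing A] [IsLocalRing A]
    [IsAdicComplete (maximalIdeal A) A] (z : A) (hz : ∀ n : ℕ, z ∈ maximalIdeal A ^ (n + 1)) :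
    z = 0 := by
  apply IsHausdorff.haus (I := maximalIdeal A) (M := A) inferInstance
  intro n
  rw [SModEq.zero, smul_eq_mul, Ideal.mul_top]
  exact Ideal.pow_le_pow_right (Nat.le_succ n) (hz n)

theorem defPred_lim (h𝒟 : GaloisRep.IsDeformationCondition O 𝒟)
    ⦃A : Type⦄ [CommRing A] [IsLocalRing A] [IsNoetherianRing A]
    [IsAdicComplete (maximalIdeal A) A] [Algebra O A]
    (hloc : IsLocalHom (algebraMap O A))
    (hres : Function.Surjective (IsLocalRing.residue A ∘ algebraMap O A))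
    (x : Coord → A) :
    defPred G 𝒟 x ↔ ∀ ⦃B : Type⦄ [CommRing B] [IsLocalRing B] [Algebra O B],
        GaloisRep.IsArtinianTestAlgebra O B →
        ∀ (q : A →ₐ[O] B), IsLocalHom (q : A →+* B) → Function.Surjective q →
          defPred G 𝒟 (q ∘ x) := by
  constructor
  · rintro ⟨r, hr, hx, hn, hD⟩ B _ _ _ hB q hq hsurj
    exact defPred_comp_of_D 𝒟 h𝒟 hB q hq r hr hx hn
      ((h𝒟.iff_forall_surjective hloc hres (ofMatrix r hr)).mp hD hB q hq hsurj)
  · intro H
    -- the Artinian quotients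
    have key : ∀ n : ℕ, IsNormPointMod G (maximalIdeal A ^ (n + 1)) x ∧
        IsTrivMod (maximalIdeal A ^ (n + 1)) x ∧
        ∀ f, x f - algebraMap O A (G.basePt f) ∈ maximalIdeal A := by
      intro n
      have : IsLocalRing (A ⧸ maximalIdeal A ^ (n + 1)) := isLocalRing_quotient_pow A n
      have hB : GaloisRep.IsArtinianTestAlgebra O (A ⧸ maximalIdeal A ^ (n + 1)) :=
        isArtinianTestAlgebra_quotient_pow hloc hres (n + 1)
      have hq : IsLocalHom ((Ideal.Quotient.mkₐ O (maximalIdeal A ^ (n + 1)) :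
          A →ₐ[O] A ⧸ maximalIdeal A ^ (n + 1)) : A →+* A ⧸ maximalIdeal A ^ (n + 1)) :=
        isLocalHom_quotient_mk (maximalIdeal A ^ (n + 1))
      obtain ⟨r', hr', hx', hn', -⟩ := H hB (Ideal.Quotient.mkₐ O (maximalIdeal A ^ (n + 1))) hq
        (Ideal.Quotient.mkₐ_surjective O _)
      have hker : RingHom.ker ((Ideal.Quotient.mkₐ O (maximalIdeal A ^ (n + 1)) :
          A →ₐ[O] A ⧸ maximalIdeal A ^ (n + 1)) : A →+* A ⧸ maximalIdeal A ^ (n + 1))
          = maximalIdeal A ^ (n + 1) := Ideal.mk_ker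
      refine ⟨hker ▸ IsNormPointMod.of_hom _ hx' hn', ?_,
        red_of_comp (Ideal.Quotient.mkₐ O (maximalIdeal A ^ (n + 1))) (red_of_isLift hn'.red hx')⟩
      have h1 := IsTrivMod.of_hom ((Ideal.Quotient.mkₐ O (maximalIdeal A ^ (n + 1)) :
          A →ₐ[O] A ⧸ maximalIdeal A ^ (n + 1)) : A →+* A ⧸ maximalIdeal A ^ (n + 1))
          hx' hr' (n + 1)
      rwa [maximalIdeal_quotient_pow_eq_bot, ← RingHom.ker_eq_comap_bot, hker] at h1
    have hN : IsNormPointMod G ⊥ x :=
      IsNormPointMod.of_forall (fun n : ℕ => maximalIdeal A ^ (n + 1)) ⊥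
        (fun z hz => (Ideal.mem_bot).mpr (eq_zero_of_forall_mem_pow z hz)) fun n => (key n).1
    have hr : MatCont (homOfNormPoint x hN) := by
      rw [matCont_iff_isTrivMod]
      intro n
      cases n with
      | zero =>
        rw [pow_zero, Ideal.one_eq_top]
        exact (key 0).2.1.mono le_top
      | succ n => exact (key n).2.1
    refine ⟨homOfNormPoint x hN, hr, fun _ _ _ => rfl,
      isNormLift_homOfNormPoint x hN (key 0).2.2, ?_⟩
    rw [h𝒟.iff_forall_surjective hloc hres]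
    intro B _ _ _ hB q hq hsurj
    exact D_baseChange_of_defPred 𝒟 h𝒟 hB q hq _ hr (fun _ _ _ => rfl) (H hB q hq hsurj)

end fields

end Fermat.Agent.H81
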