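import Fermat.Agent.H81.FieldBase

set_option autoImplicit false
set_option linter.unusedSectionVars false

noncomputable section

namespace Fermat.Agent.H81

open Fermat.Agent.H78 IsLocalRing Matrix

section tangent

variable {O : Type} [CommRing O] [IsLocalRing O]
variable {G : Gauge O}
variable {𝒟 : ∀ ⦃A : Type⦄ [CommRing A] [IsLocalRing A] [Algebra O A], GaloisRepAdic A → Prop}


lemma isLocalHom_algebraMap_dualNumber (O : Type) [CommRing O] [IsLocalRing O] :
    IsLocalHom (@algebraMap O (DualNumber (ResidueField O)) _ _ (dualNumberAlgebra O)) := by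
  letI := dualNumberAlgebra O
  constructor
  intro o ho
  have h1 : algebraMap O (DualNumber (ResidueField O)) o
      = algebraMap (ResidueField O) (DualNumber (ResidueField O)) (IsLocalRing.residue O o) := rfl
  rw [h1] at ho
  have h2 : IsUnit (IsLocalRing.residue O o) := by
    have := ho.map (TrivSqZeroExt.fstHom (ResidueField O) (ResidueField O) (ResidueField O))
    simpa using this
  exact isUnit_of_map_unit (IsLocalRing.residue O) o h2

end tangent

end Fermat.Agent.H81

namespace Fermat.Agent.H81

open Fermat.Agent.H78 IsLocalRing Matrix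

section tangent2

variable {O : Type} [CommRing O] [IsLocalRing O]
variable {G : Gauge O}
variable {𝒟 : ∀ ⦃A : Type⦄ [CommRing A] [IsLocalRing A] [Algebra O A], GaloisRepAdic A → Prop}

/-- The two ring homs from the residue field of `O` to the residue field of the dual numbers
agree. -/
lemma residueField_map_dualNumber (O : Type) [CommRing O] [IsLocalRing O] :
    letI := dualNumberAlgebra O
    haveI := isLocalHom_algebraMap_dualNumber O
    IsLocalRing.ResidueField.map (algebraMap O (DualNumber (ResidueField O)))
      = (IsLocalRing.residue (DualNumber (ResidueField O))).comp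
          (algebraMap (ResidueField O) (DualNumber (ResidueField O))) := by
  letI := dualNumberAlgebra O
  haveI := isLocalHom_algebraMap_dualNumber O
  refine RingHom.ext fun y => ?_
  obtain ⟨o, rfl⟩ := IsLocalRing.residue_surjective y
  rfl

theorem defPred_tfin {ρbar : ResidualGaloisRep (ResidueField O)}
    (hfin : GaloisRep.TangentFinite O ρbar 𝒟)
    (hRES : letI := dualNumberAlgebra O
      haveI := isLocalHom_algebraMap_dualNumber O
      ∀ (r : GalQ →* M2 (DualNumber (ResidueField O))) (hr : MatCont r), IsLift G r →
        (ofMatrix r hr).residual.IsEquiv (ρbar.baseChangeAlong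
          (IsLocalRing.ResidueField.map (algebraMap O (DualNumber (ResidueField O)))))) :
    Finite {x : Coord → DualNumber (ResidueField O) //
      @defPred O _ _ G 𝒟 (DualNumber (ResidueField O)) _ _ (dualNumberAlgebra O) x} := by
  unfold GaloisRep.TangentFinite at hfin
  letI := dualNumberAlgebra O
  haveI := isLocalHom_algebraMap_dualNumber O
  have hch : ∀ x : {x : Coord → DualNumber (ResidueField O) // defPred G 𝒟 x},
      ∃ (r : GalQ →* M2 (DualNumber (ResidueField O))) (hr : MatCont r),
        (∀ σ a b, r σ a b = x.1 (σ, a, b)) ∧ IsNormLift G r ∧ 𝒟 (ofMatrix r hr) := fun x => x.2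
  choose r hr hx hn hD using hch
  have hres : ∀ x, (ofMatrix (r x) (hr x)).residual.IsEquiv
      (@ResidualGaloisRep.baseChange (ResidueField O) _
        (ResidueField (DualNumber (ResidueField O))) _
        ((IsLocalRing.residue (DualNumber (ResidueField O))).comp
          (algebraMap (ResidueField O) (DualNumber (ResidueField O)))).toAlgebra ρbar) := by
    intro x
    have h1 := hRES (r x) (hr x) (hn x).red
    rw [residueField_map_dualNumber O] at h1
    exact h1
  refine @Finite.of_injective _ _ hfin
    (fun x => Quotient.mk _ ⟨ofMatrix (r x) (hr x), hD x, hres x⟩) ?_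
  intro x y hxy
  have h1 := Quotient.exact hxy
  obtain ⟨U, hU⟩ := exists_conj_of_ofMatrix_isEquiv (hr x) (hr y) h1
  have h2 : r y = r x := Fermat.Agent.H41.IsNormLift.eq_of_conj (hn x) (hn y) U hU
  apply Subtype.ext
  funext f
  obtain ⟨σ, a, b⟩ := f
  rw [← hx x, ← hx y, h2]

end tangent2

end Fermat.Agent.H81
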