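import Fermat.Agent.H81.Transfer

set_option autoImplicit false
set_option linter.unusedSectionVars false

noncomputable section

namespace Fermat.Agent.H81

open Fermat.Agent.H78 IsLocalRing Matrix

section fields

variable {O : Type} [CommRing O] [IsLocalRing O]
variable (G : Gauge O)
variable (𝒟 : ∀ ⦃A : Type⦄ [CommRing A] [IsLocalRing A] [Algebra O A], GaloisRepAdic A → Prop)

theorem defPred_red ⦃A : Type⦄ [CommRing A] [IsLocalRing A] [Algebra O A] (x : Coord → A)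
    (hx : defPred G 𝒟 x) (f : Coord) : x f - algebraMap O A (G.basePt f) ∈ maximalIdeal A := by
  obtain ⟨r, hr, hx, hn, -⟩ := hx
  exact red_of_isLift hn.red hx f

variable {G 𝒟}

theorem defPred_push (h𝒟 : GaloisRep.IsDeformationCondition O 𝒟)
    ⦃A B : Type⦄ [CommRing A] [IsLocalRing A] [Algebra O A]
    [CommRing B] [IsLocalRing B] [Algebra O B]
    (hA : GaloisRep.IsArtinianTestAlgebra O A) (hB : GaloisRep.IsArtinianTestAlgebra O B)
    (φ : A →ₐ[O] B) (hφ : IsLocalHom (φ : A →+* B)) (x : Coord → A) (hx : defPred G 𝒟 x) :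
    defPred G 𝒟 (φ ∘ x) := by
  obtain ⟨r, hr, hx, hn, hD⟩ := hx
  exact defPred_comp_of_D 𝒟 h𝒟 hB φ hφ r hr hx hn (h𝒟.baseChangeAlong hA hB φ hφ hD)

theorem defPred_desc (h𝒟 : GaloisRep.IsDeformationCondition O 𝒟)
    ⦃A B : Type⦄ [CommRing A] [IsLocalRing A] [Algebra O A]
    [CommRing B] [IsLocalRing B] [Algebra O B]
    (hA : GaloisRep.IsArtinianTestAlgebra O A) (hB : GaloisRep.IsArtinianTestAlgebra O B)
    (φ : A →ₐ[O] B) (hφ : IsLocalHom (φ : A →+* B)) (hinj : Function.Injective φ)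
    (x : Coord → A) (hP : defPred G 𝒟 (φ ∘ x)) : defPred G 𝒟 x := by
  obtain ⟨r', hr', hx', hn', hD'⟩ := id hP
  have hker : RingHom.ker (φ : A →+* B) = ⊥ := (RingHom.injective_iff_ker_eq_bot _).mp hinj
  have hN : IsNormPointMod G ⊥ x := hker ▸ IsNormPointMod.of_hom φ hx' hn'
  have hred : ∀ f, x f - algebraMap O A (G.basePt f) ∈ maximalIdeal A :=
    red_of_comp φ (red_of_isLift hn'.red hx')
  have hTriv : IsTrivMod ⊥ x := by
    have := hB.isArtinian
    obtain ⟨n, hn⟩ := exists_maximalIdeal_pow_eq_bot B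
    have h1 := IsTrivMod.of_hom (φ : A →+* B) hx' hr' n
    rwa [hn, ← RingHom.ker_eq_comap_bot, hker] at h1
  have hr : MatCont (homOfNormPoint x hN) :=
    (matCont_iff_isTrivMod _).mpr fun n => hTriv.mono bot_le
  refine ⟨homOfNormPoint x hN, hr, fun _ _ _ => rfl, isNormLift_homOfNormPoint x hN hred, ?_⟩
  exact h𝒟.of_baseChangeAlong_injective hA hB φ hφ hinj
    (D_baseChange_of_defPred 𝒟 h𝒟 hB φ hφ _ hr (fun _ _ _ => rfl) hP)

theorem defPred_fib (h𝒟 : GaloisRep.IsDeformationCondition O 𝒟)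
    ⦃A B C Q : Type⦄ [CommRing A] [IsLocalRing A] [Algebra O A]
    [CommRing B] [IsLocalRing B] [Algebra O B] [CommRing C] [IsLocalRing C] [Algebra O C]
    [CommRing Q] [IsLocalRing Q] [Algebra O Q]
    (hA : GaloisRep.IsArtinianTestAlgebra O A) (hB : GaloisRep.IsArtinianTestAlgebra O B)
    (hC : GaloisRep.IsArtinianTestAlgebra O C) (hQ : GaloisRep.IsArtinianTestAlgebra O Q)
    (f : A →ₐ[O] C) (g : B →ₐ[O] C) (pA : Q →ₐ[O] A) (pB : Q →ₐ[O] B)
    (hpA : IsLocalHom (pA : Q →+* A)) (hpB : IsLocalHom (pB : Q →+* B))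
    (hcomp : f.comp pA = g.comp pB)
    (hinj : Function.Injective (fun x => (pA x, pB x)))
    (hsurj : ∀ a b, f a = g b → ∃ x, pA x = a ∧ pB x = b)
    (x : Coord → Q) (hPA : defPred G 𝒟 (pA ∘ x)) (hPB : defPred G 𝒟 (pB ∘ x)) :
    defPred G 𝒟 x := by
  obtain ⟨rA, hrA, hxA, hnA, -⟩ := id hPA
  obtain ⟨rB, hrB, hxB, hnB, -⟩ := id hPB
  have hker : RingHom.ker (pA : Q →+* A) ⊓ RingHom.ker (pB : Q →+* B) = ⊥ := by
    rw [eq_bot_iff]
    intro z hz
    obtain ⟨hzA, hzB⟩ := Ideal.mem_inf.mp hz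
    rw [RingHom.mem_ker, RingHom.coe_coe] at hzA hzB
    have : (fun x => (pA x, pB x)) z = (fun x => (pA x, pB x)) 0 := by
      simp [hzA, hzB]
    exact hinj this
  have hN : IsNormPointMod G ⊥ x :=
    hker ▸ (IsNormPointMod.of_hom pA hxA hnA).inf (IsNormPointMod.of_hom pB hxB hnB)
  have hred : ∀ f, x f - algebraMap O Q (G.basePt f) ∈ maximalIdeal Q :=
    red_of_comp pA (red_of_isLift hnA.red hxA)
  have hTriv : IsTrivMod ⊥ x := by
    have := hA.isArtinian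
    have := hB.isArtinian
    obtain ⟨n, hn⟩ := exists_maximalIdeal_pow_eq_bot A
    obtain ⟨m, hm⟩ := exists_maximalIdeal_pow_eq_bot B
    have h1 := IsTrivMod.of_hom (pA : Q →+* A) hxA hrA n
    have h2 := IsTrivMod.of_hom (pB : Q →+* B) hxB hrB m
    rw [hn, ← RingHom.ker_eq_comap_bot] at h1
    rw [hm, ← RingHom.ker_eq_comap_bot] at h2
    exact hker ▸ h1.inf h2
  have hr : MatCont (homOfNormPoint x hN) :=
    (matCont_iff_isTrivMod _).mpr fun n => hTriv.mono bot_le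
  refine ⟨homOfNormPoint x hN, hr, fun _ _ _ => rfl, isNormLift_homOfNormPoint x hN hred, ?_⟩
  exact h𝒟.of_fibreProduct hA hB hC hQ f g pA pB hpA hpB hcomp hinj hsurj
    (D_baseChange_of_defPred 𝒟 h𝒟 hA pA hpA _ hr (fun _ _ _ => rfl) hPA)
    (D_baseChange_of_defPred 𝒟 h𝒟 hB pB hpB _ hr (fun _ _ _ => rfl) hPB)

end fields

end Fermat.Agent.H81
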