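import Mathlib.RingTheory.Valuation.LocalSubring
import Mathlib.RingTheory.Polynomial.Content
import Mathlib.RingTheory.IntegralClosure.IsIntegralClosure.Basic

/-!
# Elements of a valuation subring as fractions of integral elements

For a field `K`, a valuation subring `A` of `K` and `x ∈ A` algebraic over `ℤ`, there are
`y z : K`, both integral over `ℤ`, with `y` a unit of `A` and `x * y = z`.
-/

set_option autoImplicit false

namespace Fermat.Agent.H81

open Polynomial

variable {K : Type*} [Field K]

/-- An element lying in every valuation subring of `K` is integral over `ℤ`. -/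
theorem isIntegral_int_of_forall_mem_valuationSubring {y : K}
    (hy : ∀ W : ValuationSubring K, y ∈ W) : IsIntegral ℤ y := by
  have h1 : y ∈ (⨅ V : {V : ValuationSubring K // (∅ : Set K) ⊆ V.toSubring}, V.1.toSubring) := by
    rw [Subring.mem_iInf]
    intro V
    exact hy V.1
  rw [iInf_valuationSubring_superset] at h1
  have h2 : IsIntegral (Subring.closure (∅ : Set K)) y := h1
  have h3 : Algebra.IsIntegral ℤ (Subring.closure (∅ : Set K)) := by
    constructor
    intro ⟨b, hb⟩
    have hb' : b ∈ (⊥ : Subring K) := by rwa [Subring.closure_empty] at hb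
    obtain ⟨n, rfl⟩ := Subring.mem_bot.mp hb'
    have : (⟨(n : K), hb⟩ : Subring.closure (∅ : Set K)) = algebraMap ℤ _ n := by
      apply Subtype.ext
      simp
    rw [this]
    exact isIntegral_algebraMap
  exact isIntegral_trans y h2

/-- Integers have valuation at most one. -/
theorem valuation_intCast_le_one (A : ValuationSubring K) (n : ℤ) :
    A.valuation (n : K) ≤ 1 :=
  (A.valuation_le_one_iff _).mpr (intCast_mem A n)

/-- A primitive integer polynomial has a coefficient which is a unit in the valuation subring. -/
theorem exists_coeff_valuation_eq_one (A : ValuationSubring K) {f : ℤ[X]} (hf : f.IsPrimitive) :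
    ∃ i, A.valuation ((f.coeff i : ℤ) : K) = 1 := by
  by_contra hcon
  push Not at hcon
  have hlt : ∀ i, A.valuation ((f.coeff i : ℤ) : K) < 1 := fun i =>
    lt_of_le_of_ne (valuation_intCast_le_one A _) (hcon i)
  let I : Ideal ℤ :=
    { carrier := {n : ℤ | A.valuation (n : K) < 1}
      add_mem' := fun {a b} ha hb => by
        simp only [Set.mem_ofPred_eq, Int.cast_add] at *
        exact A.valuation.map_add_lt ha hb
      zero_mem' := by simp
      smul_mem' := fun c n hn => by
        simp only [Set.mem_ofPred_eq, smul_eq_mul, Int.cast_mul, map_mul] at *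
        calc A.valuation (c : K) * A.valuation (n : K) ≤ 1 * A.valuation (n : K) :=
              mul_le_mul_left (valuation_intCast_le_one A c) _
          _ < 1 := by rwa [one_mul] }
  obtain ⟨d, hd⟩ : ∃ d : ℤ, I = Ideal.span {d} :=
    ⟨_, (Ideal.span_singleton_generator I).symm⟩
  have hdvd : ∀ i, d ∣ f.coeff i := fun i => by
    have : f.coeff i ∈ I := hlt i
    rw [hd, Ideal.mem_span_singleton] at this
    exact this
  have hunit : IsUnit d := hf d ((Polynomial.C_dvd_iff_dvd_coeff d f).mpr hdvd)
  have h1 : (1 : ℤ) ∈ I := by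
    rw [hd]
    exact Ideal.mem_span_singleton.mpr hunit.dvd
  have : A.valuation ((1 : ℤ) : K) < 1 := h1
  simp at this

open Classical in
/-- **Seidenberg-type lemma.** Every element `x` of a valuation subring `A` of `K` which is
algebraic over `ℤ` can be written as `z / y` with `y, z` integral over `ℤ` and `y` a unit
of `A`. -/
theorem exists_integral_fraction [CharZero K] (A : ValuationSubring K) {x : K} (hx : x ∈ A)
    (halg : IsAlgebraic ℤ x) :
    ∃ y z : K, IsIntegral ℤ y ∧ IsIntegral ℤ z ∧ A.valuation y = 1 ∧ x * y = z := by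
  rcases eq_or_ne x 0 with rfl | hx0
  · exact ⟨1, 0, isIntegral_one, isIntegral_zero, by simp, by simp⟩
  obtain ⟨f0, hf0, hf0x⟩ := halg
  set f := f0.primPart with hfdef
  have hf : f.IsPrimitive := f0.isPrimitive_primPart
  have hfx : aeval x f = 0 := aeval_primPart_eq_zero hf0 hf0x
  set v := A.valuation with hv
  set n := f.natDegree with hn
  set a : ℕ → K := fun i => ((f.coeff i : ℤ) : K) with ha
  have hale : ∀ i, v (a i) ≤ 1 := fun i => valuation_intCast_le_one A _
  obtain ⟨i0, hi0⟩ := exists_coeff_valuation_eq_one A hf
  have hi0n : i0 ≤ n := by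
    by_contra h
    push Not at h
    have : f.coeff i0 = 0 := Polynomial.coeff_eq_zero_of_natDegree_lt h
    rw [this] at hi0
    simp at hi0
  set s := Nat.findGreatest (fun i => v (a i) = 1) n with hs
  have hs1 : v (a s) = 1 := Nat.findGreatest_spec (P := fun i => v (a i) = 1) hi0n hi0
  have hsn : s ≤ n := Nat.findGreatest_le n
  have hs2 : ∀ i, s < i → v (a i) < 1 := by
    intro i hi
    refine lt_of_le_of_ne (hale i) ?_
    by_cases hin : i ≤ n
    · exact Nat.findGreatest_is_greatest (P := fun i => v (a i) = 1) hi hin
    · push Not at hin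
      have : f.coeff i = 0 := Polynomial.coeff_eq_zero_of_natDegree_lt hin
      simp [ha, this]
  -- the two halves of the polynomial
  set y : K := ∑ i ∈ (Finset.range (n + 1)).filter (fun i => s ≤ i), a i * x ^ (i - s) with hy
  set z : K := - ∑ i ∈ (Finset.range (n + 1)).filter (fun i => ¬ s ≤ i),
    a i * (x⁻¹) ^ (s - 1 - i) with hz
  have hsum : ∑ i ∈ Finset.range (n + 1), a i * x ^ i = 0 := by
    have := hfx
    rw [aeval_eq_sum_range] at this
    simpa [ha, zsmul_eq_mul] using this
  have hxyz : x * y = z := by
    have h1 : x ^ s * (x * y) =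
        x * ∑ i ∈ (Finset.range (n + 1)).filter (fun i => s ≤ i), a i * x ^ i := by
      simp only [hy, Finset.mul_sum]
      refine Finset.sum_congr rfl fun i hi => ?_
      have hsi : s ≤ i := (Finset.mem_filter.mp hi).2
      have : x ^ i = x ^ s * x ^ (i - s) := by rw [← pow_add, Nat.add_sub_cancel' hsi]
      rw [this]
      ring
    have h2 : x ^ s * z =
        - (x * ∑ i ∈ (Finset.range (n + 1)).filter (fun i => ¬ s ≤ i), a i * x ^ i) := by
      simp only [hz, mul_neg, Finset.mul_sum]
      congr 1
      refine Finset.sum_congr rfl fun i hi => ?_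
      have hsi : i < s := not_le.mp (Finset.mem_filter.mp hi).2
      have e : s = (s - 1 - i) + (i + 1) := by omega
      have e' : x ^ s = x ^ (i + 1) * x ^ (s - 1 - i) := by
        rw [← pow_add]
        congr 1
        omega
      have : x ^ s * (x⁻¹) ^ (s - 1 - i) = x ^ (i + 1) := by
        rw [e', mul_assoc, ← mul_pow, mul_inv_cancel₀ hx0, one_pow, mul_one]
      calc x ^ s * (a i * (x⁻¹) ^ (s - 1 - i)) = a i * (x ^ s * (x⁻¹) ^ (s - 1 - i)) := by ring
        _ = a i * x ^ (i + 1) := by rw [this]
        _ = x * (a i * x ^ i) := by ring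
    have h3 : x ^ s * (x * y - z) = 0 := by
      rw [mul_sub, h1, h2, sub_neg_eq_add, ← mul_add,
        Finset.sum_filter_add_sum_filter_not, hsum, mul_zero]
    have h4 : x * y - z = 0 := by
      rcases mul_eq_zero.mp h3 with h | h
      · exact absurd h (pow_ne_zero _ hx0)
      · exact h
    exact sub_eq_zero.mp h4
  -- membership in every valuation subring
  have hmem : ∀ W : ValuationSubring K, y ∈ W ∧ z ∈ W := by
    intro W
    have haW : ∀ i, a i ∈ W := fun i => intCast_mem W _
    rcases W.mem_or_inv_mem x with hxW | hxW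
    · have hyW : y ∈ W := by
        rw [hy]
        exact sum_mem fun i _ => mul_mem (haW i) (pow_mem hxW _)
      exact ⟨hyW, hxyz ▸ mul_mem hxW hyW⟩
    · have hzW : z ∈ W := by
        rw [hz]
        exact neg_mem (sum_mem fun i _ => mul_mem (haW i) (pow_mem hxW _))
      have : y = z * x⁻¹ := by
        rw [← hxyz]
        field_simp
      exact ⟨this ▸ mul_mem hzW hxW, hzW⟩
  -- `y` is a unit
  have hvy : v y = 1 := by
    have hsplit : (Finset.range (n + 1)).filter (fun i => s ≤ i) =
        insert s ((Finset.range (n + 1)).filter (fun i => s < i)) := by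
      ext i
      simp only [Finset.mem_filter, Finset.mem_range, Finset.mem_insert]
      constructor
      · rintro ⟨h1, h2⟩
        rcases h2.eq_or_lt with h | h
        · exact Or.inl h.symm
        · exact Or.inr ⟨h1, h⟩
      · rintro (rfl | ⟨h1, h2⟩)
        · exact ⟨by omega, le_rfl⟩
        · exact ⟨h1, h2.le⟩
    have hnot : s ∉ (Finset.range (n + 1)).filter (fun i => s < i) := by simp
    rw [hy, hsplit, Finset.sum_insert hnot, Nat.sub_self, pow_zero, mul_one]
    have hrest : v (∑ i ∈ (Finset.range (n + 1)).filter (fun i => s < i), a i * x ^ (i - s)) < 1 := by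
      refine v.map_sum_lt one_ne_zero fun i hi => ?_
      have hsi : s < i := (Finset.mem_filter.mp hi).2
      rw [map_mul, map_pow]
      have hxle : v x ≤ 1 := (A.valuation_le_one_iff x).mpr hx
      calc v (a i) * v x ^ (i - s) ≤ v (a i) * 1 := by
            gcongr
            exact pow_le_one₀ zero_le hxle
        _ = v (a i) := mul_one _
        _ < 1 := hs2 i hsi
    rw [← hs1] at hrest
    rw [v.map_add_eq_of_lt_left hrest, hs1]
  exact ⟨y, z, isIntegral_int_of_forall_mem_valuationSubring fun W => (hmem W).1,
    isIntegral_int_of_forall_mem_valuationSubring fun W => (hmem W).2, hvy, hxyz⟩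

end Fermat.Agent.H81
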