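import Fermat.Agent.H78.MatDefs
import Fermat.Agent.H78.ResidDefs
import Fermat.Agent.H78.DictConj
import Fermat.Agent.H78.DictBC

/-!
# Points of the normalized deformation functor: congruence calculus

Auxiliary notions for `defPred_isProRepresentable` (P-DEFRING, H78-DICT-7):
a point `x : Coord → A` is a *normalized multiplicative point modulo an ideal `I`* if the
equations saying that `σ ↦ (x (σ, a, b))` is a normalized matrix representation hold modulo `I`.
-/

set_option autoImplicit false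
set_option linter.unusedSectionVars false

noncomputable section

namespace Fermat.Agent.H81

open Fermat.Agent.H78 IsLocalRing Matrix

section points

variable {O : Type} [CommRing O] [IsLocalRing O]
variable {A : Type} [CommRing A] [IsLocalRing A] [Algebra O A]
variable {B : Type} [CommRing B] [IsLocalRing B] [Algebra O B]

/-- The equations of a normalized matrix representation hold modulo `I`. -/
structure IsNormPointMod (G : Gauge O) (I : Ideal A) (x : Coord → A) : Prop where
  one : ∀ a b, x (1, a, b) - (1 : M2 A) a b ∈ I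
  mul : ∀ σ τ a b, x (σ * τ, a, b) - ∑ c, x (σ, a, c) * x (τ, c, b) ∈ I
  col0 : x (G.ga, 0, 0) ∈ I
  col1 : x (G.ga, 1, 0) - 1 ∈ I
  entry : x (G.gb, G.i, G.j) - algebraMap O A (G.lift G.gb G.i G.j) ∈ I

lemma IsNormPointMod.mono {G : Gauge O} {I J : Ideal A} {x : Coord → A} (hIJ : I ≤ J)
    (h : IsNormPointMod G I x) : IsNormPointMod G J x :=
  ⟨fun a b => hIJ (h.one a b), fun σ τ a b => hIJ (h.mul σ τ a b), hIJ h.col0, hIJ h.col1,
    hIJ h.entry⟩

lemma IsNormPointMod.inf {G : Gauge O} {I J : Ideal A} {x : Coord → A}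
    (hI : IsNormPointMod G I x) (hJ : IsNormPointMod G J x) : IsNormPointMod G (I ⊓ J) x :=
  ⟨fun a b => ⟨hI.one a b, hJ.one a b⟩, fun σ τ a b => ⟨hI.mul σ τ a b, hJ.mul σ τ a b⟩,
    ⟨hI.col0, hJ.col0⟩, ⟨hI.col1, hJ.col1⟩, ⟨hI.entry, hJ.entry⟩⟩

lemma IsNormPointMod.of_forall {G : Gauge O} {ι : Type} (I : ι → Ideal A) {x : Coord → A}
    (J : Ideal A) (hJ : ∀ z, (∀ i, z ∈ I i) → z ∈ J)
    (h : ∀ i, IsNormPointMod G (I i) x) : IsNormPointMod G J x :=
  ⟨fun a b => hJ _ fun i => (h i).one a b, fun σ τ a b => hJ _ fun i => (h i).mul σ τ a b,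
    hJ _ fun i => (h i).col0, hJ _ fun i => (h i).col1, hJ _ fun i => (h i).entry⟩

lemma map_one_apply (φ : A →+* B) (a b : Fin 2) : φ ((1 : M2 A) a b) = (1 : M2 B) a b := by
  by_cases h : a = b
  · subst h
    rw [Matrix.one_apply_eq, Matrix.one_apply_eq, map_one]
  · rw [Matrix.one_apply_ne h, Matrix.one_apply_ne h, map_zero]

/-- A normalized matrix representation over `B` with entries `φ ∘ x` shows that `x` is a
normalized point modulo `ker φ`. -/
lemma IsNormPointMod.of_hom {G : Gauge O} (φ : A →ₐ[O] B) {x : Coord → A} {r : GalQ →* M2 B}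
    (hx : ∀ σ a b, r σ a b = φ (x (σ, a, b))) (hr : IsNormLift G r) :
    IsNormPointMod G (RingHom.ker (φ : A →+* B)) x := by
  refine ⟨fun a b => ?_, fun σ τ a b => ?_, ?_, ?_, ?_⟩
  · rw [RingHom.mem_ker, map_sub, RingHom.coe_coe, ← hx, map_one r, sub_eq_zero]
    exact (map_one_apply (φ : A →+* B) a b).symm
  · rw [RingHom.mem_ker, map_sub, map_sum, RingHom.coe_coe, ← hx, map_mul r, Matrix.mul_apply,
      sub_eq_zero]
    refine Finset.sum_congr rfl fun c _ => ?_
    rw [map_mul, ← hx, ← hx]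
  · rw [RingHom.mem_ker, RingHom.coe_coe, ← hx, hr.col0]
  · rw [RingHom.mem_ker, map_sub, RingHom.coe_coe, ← hx, hr.col1, map_one, sub_self]
  · rw [RingHom.mem_ker, map_sub, RingHom.coe_coe, ← hx, hr.entry, AlgHom.commutes, sub_self]

/-- The matrix representation attached to a normalized point. -/
def homOfNormPoint {G : Gauge O} (x : Coord → A) (h : IsNormPointMod G ⊥ x) : GalQ →* M2 A where
  toFun σ := Matrix.of fun a b => x (σ, a, b)
  map_one' := by
    ext a b
    have := h.one a b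
    rw [Ideal.mem_bot, sub_eq_zero] at this
    simpa using this
  map_mul' σ τ := by
    ext a b
    have := h.mul σ τ a b
    rw [Ideal.mem_bot, sub_eq_zero] at this
    simpa [Matrix.mul_apply] using this

@[simp] lemma homOfNormPoint_apply {G : Gauge O} (x : Coord → A) (h : IsNormPointMod G ⊥ x)
    (σ : GalQ) (a b : Fin 2) : homOfNormPoint x h σ a b = x (σ, a, b) := rfl

/-- Triviality of a point on an open subgroup, modulo `I`. -/
def IsTrivMod (I : Ideal A) (x : Coord → A) : Prop :=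
  ∃ L : IntermediateField ℚ (AlgebraicClosure ℚ), FiniteDimensional ℚ L ∧
    ∀ σ : GalQ, (∀ y ∈ L, σ y = y) → ∀ a b, x (σ, a, b) - (1 : M2 A) a b ∈ I

lemma IsTrivMod.mono {I J : Ideal A} {x : Coord → A} (hIJ : I ≤ J) (h : IsTrivMod I x) :
    IsTrivMod J x := by
  obtain ⟨L, hL, h⟩ := h
  exact ⟨L, hL, fun σ hσ a b => hIJ (h σ hσ a b)⟩

lemma IsTrivMod.inf {I J : Ideal A} {x : Coord → A} (hI : IsTrivMod I x) (hJ : IsTrivMod J x) :
    IsTrivMod (I ⊓ J) x := by
  obtain ⟨L, hL, h⟩ := hI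
  obtain ⟨L', hL', h'⟩ := hJ
  refine ⟨L ⊔ L', ?_, fun σ hσ a b => ⟨h σ (fun y hy => hσ y ?_) a b, h' σ (fun y hy => hσ y ?_) a b⟩⟩
  · exact IntermediateField.finiteDimensional_sup L L'
  · exact (le_sup_left : L ≤ L ⊔ L') hy
  · exact (le_sup_right : L' ≤ L ⊔ L') hy

lemma matCont_iff_isTrivMod (r : GalQ → M2 A) :
    MatCont r ↔ ∀ n : ℕ, IsTrivMod (maximalIdeal A ^ n) (fun f => r f.1 f.2.1 f.2.2) := by
  unfold MatCont IsTrivMod
  simp only [Matrix.sub_apply]

/-- If `r` over `B` is adically continuous with entries `φ ∘ x`, then `x` is trivial on an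
open subgroup modulo the preimage of any power of the maximal ideal of `B`. -/
lemma IsTrivMod.of_hom (φ : A →+* B) {x : Coord → A} {r : GalQ → M2 B}
    (hx : ∀ σ a b, r σ a b = φ (x (σ, a, b))) (hr : MatCont r) (n : ℕ) :
    IsTrivMod ((maximalIdeal B ^ n).comap φ) x := by
  obtain ⟨L, hL, h⟩ := hr n
  refine ⟨L, hL, fun σ hσ a b => ?_⟩
  rw [Ideal.mem_comap, map_sub, ← hx, map_one_apply]
  simpa using h σ hσ a b

end points

end Fermat.Agent.H81
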