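import Fermat.Agent.H81.ProRepAux
import Fermat.Agent.H78.Resid

/-!
# P-DEFRING, subtask H78-DICT-7: the normalized deformation predicate is pro-representable
-/

set_option autoImplicit false
set_option linter.unusedSectionVars false

noncomputable section

namespace Fermat.Agent.H81

open Fermat.Agent.H78 IsLocalRing Matrix

/-- **H78-DICT-7**, general form (any local ring `O`). -/
theorem defPred_isProRepresentable' {O : Type} [CommRing O] [IsLocalRing O] {G : Gauge O}
    {ρbar : ResidualGaloisRep (ResidueField O)}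
    {β : Module.Basis (Fin 2) (ResidueField O) ρbar.V} (hG : G.IsFor ρbar β)
    (𝒟 : ∀ ⦃A : Type⦄ [CommRing A] [IsLocalRing A] [Algebra O A], GaloisRepAdic A → Prop)
    (h𝒟 : GaloisRep.IsDeformationCondition O 𝒟)
    (hbar : 𝒟 (GaloisRepAdic.ofResidualGaloisRep ρbar))
    (hfin : GaloisRep.TangentFinite O ρbar 𝒟) :
    IsProRepresentablePred O G.basePt (defPred G 𝒟) :=
  defPred_isProRepresentable_of_res hG 𝒟 h𝒟 hbar hfin
    (letI := dualNumberAlgebra O
     haveI := isLocalHom_algebraMap_dualNumber O
     fun _ hr hl => residual_isEquiv_of_isLift hG hr hl)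

variable {O : Type} [CommRing O] [IsDomain O] [IsDiscreteValuationRing O]
  [IsAdicComplete (maximalIdeal O) O] [Finite (ResidueField O)]

/-- **H78-DICT-7**: the predicate `defPred G 𝒟` of normalized lifts of type `𝒟` satisfies the
closure properties `IsProRepresentablePred`. -/
theorem defPred_isProRepresentable {G : Gauge O} {ρbar : ResidualGaloisRep (ResidueField O)}
    {β : Module.Basis (Fin 2) (ResidueField O) ρbar.V} (hG : G.IsFor ρbar β)
    (𝒟 : ∀ ⦃A : Type⦄ [CommRing A] [IsLocalRing A] [Algebra O A], GaloisRepAdic A → Prop)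
    (h𝒟 : GaloisRep.IsDeformationCondition O 𝒟)
    (hbar : 𝒟 (GaloisRepAdic.ofResidualGaloisRep ρbar))
    (hfin : GaloisRep.TangentFinite O ρbar 𝒟) :
    IsProRepresentablePred O G.basePt (defPred G 𝒟) :=
  defPred_isProRepresentable' hG 𝒟 h𝒟 hbar hfin

end Fermat.Agent.H81
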