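import Fermat.Agent.H81.FieldTangent

set_option autoImplicit false
set_option linter.unusedSectionVars false

noncomputable section

namespace Fermat.Agent.H81

open Fermat.Agent.H78 IsLocalRing Matrix

variable {O : Type} [CommRing O] [IsLocalRing O]

/-- `defPred G 𝒟` is pro-representable, given the residual dictionary over the dual numbers. -/
theorem defPred_isProRepresentable_of_res {G : Gauge O}
    {ρbar : ResidualGaloisRep (ResidueField O)}
    {β : Module.Basis (Fin 2) (ResidueField O) ρbar.V} (hG : G.IsFor ρbar β)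
    (𝒟 : ∀ ⦃A : Type⦄ [CommRing A] [IsLocalRing A] [Algebra O A], GaloisRepAdic A → Prop)
    (h𝒟 : GaloisRep.IsDeformationCondition O 𝒟)
    (hbar : 𝒟 (GaloisRepAdic.ofResidualGaloisRep ρbar))
    (hfin : GaloisRep.TangentFinite O ρbar 𝒟)
    (hRES : letI := dualNumberAlgebra O
      haveI := isLocalHom_algebraMap_dualNumber O
      ∀ (r : GalQ →* M2 (DualNumber (ResidueField O))) (hr : MatCont r), IsLift G r →
        (ofMatrix r hr).residual.IsEquiv (ρbar.baseChangeAlong
          (IsLocalRing.ResidueField.map (algebraMap O (DualNumber (ResidueField O)))))) :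
    IsProRepresentablePred O G.basePt (defPred G 𝒟) where
  red := defPred_red G 𝒟
  push := fun _ _ _ _ _ _ _ _ hA hB φ hφ x hx => defPred_push h𝒟 hA hB φ hφ x hx
  desc := fun _ _ _ _ _ _ _ _ hA hB φ hφ hinj x hx => defPred_desc h𝒟 hA hB φ hφ hinj x hx
  fib := fun _ _ _ _ _ _ _ _ _ _ _ _ _ _ _ _ hA hB hC hQ f g pA pB hpA hpB hcomp hinj hsurj x
    hxA hxB => defPred_fib h𝒟 hA hB hC hQ f g pA pB hpA hpB hcomp hinj hsurj x hxA hxB
  lim := fun _ _ _ _ _ _ hloc hres x => defPred_lim h𝒟 hloc hres x
  base := defPred_base hG h𝒟 hbar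
  tfin := defPred_tfin hfin hRES

end Fermat.Agent.H81
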