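import Fermat.Agent.H81.NormPoint

set_option autoImplicit false
set_option linter.unusedSectionVars false

noncomputable section

namespace Fermat.Agent.H81

open Fermat.Agent.H78 IsLocalRing Matrix

section basics

variable {A : Type} [CommRing A] [IsLocalRing A]
variable {B : Type} [CommRing B] [IsLocalRing B]

lemma exists_maximalIdeal_pow_eq_bot (B : Type) [CommRing B] [IsLocalRing B] [IsArtinianRing B] :
    ∃ n : ℕ, maximalIdeal B ^ n = ⊥ := by
  obtain ⟨n, hn⟩ := IsArtinianRing.isNilpotent_jacobson_bot (R := B)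
  rw [IsLocalRing.jacobson_eq_maximalIdeal ⊥ bot_ne_top] at hn
  exact ⟨n, hn⟩

lemma mem_maximalIdeal_of_map (φ : A →+* B) {z : A} (h : φ z ∈ maximalIdeal B) :
    z ∈ maximalIdeal A := by
  rw [mem_maximalIdeal, mem_nonunits_iff] at h ⊢
  exact fun hz => h (hz.map φ)

lemma map_mem_maximalIdeal (φ : A →+* B) (hφ : IsLocalHom φ) {z : A} (h : z ∈ maximalIdeal A) :
    φ z ∈ maximalIdeal B := by
  rw [mem_maximalIdeal, mem_nonunits_iff] at h ⊢
  exact fun hz => h (hφ.map_nonunit z hz)

end basics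

section quot

variable {O : Type} [CommRing O] [IsLocalRing O]
variable (A : Type) [CommRing A] [IsLocalRing A] [Algebra O A]

lemma isLocalRing_quotient_pow (n : ℕ) : IsLocalRing (A ⧸ maximalIdeal A ^ (n + 1)) := by
  have hne : maximalIdeal A ^ (n + 1) ≠ ⊤ := by
    intro h
    have h1 : maximalIdeal A ^ (n + 1) ≤ maximalIdeal A := Ideal.pow_le_self (by omega)
    rw [h] at h1
    exact (maximalIdeal.isMaximal A).ne_top (top_le_iff.mp h1)
  have : Nontrivial (A ⧸ maximalIdeal A ^ (n + 1)) := Ideal.Quotient.nontrivial_iff.mpr hne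
  exact IsLocalRing.of_surjective' (Ideal.Quotient.mk _) Ideal.Quotient.mk_surjective

variable {A}

lemma isLocalHom_quotient_mk (I : Ideal A) [IsLocalRing (A ⧸ I)] :
    IsLocalHom (Ideal.Quotient.mk I) :=
  IsLocalHom.of_surjective (Ideal.Quotient.mk I) Ideal.Quotient.mk_surjective

lemma maximalIdeal_quotient_pow_eq_bot (n : ℕ) [IsLocalRing (A ⧸ maximalIdeal A ^ n)] :
    maximalIdeal (A ⧸ maximalIdeal A ^ n) ^ n = ⊥ := by
  have hloc := isLocalHom_quotient_mk (maximalIdeal A ^ n)
  have h1 : maximalIdeal (A ⧸ maximalIdeal A ^ n)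
      ≤ (maximalIdeal A).map (Ideal.Quotient.mk (maximalIdeal A ^ n)) := by
    intro z hz
    obtain ⟨a, rfl⟩ := Ideal.Quotient.mk_surjective z
    exact Ideal.mem_map_of_mem _ (mem_maximalIdeal_of_map _ hz)
  rw [eq_bot_iff]
  refine (Ideal.pow_right_mono h1 n).trans ?_
  rw [← Ideal.map_pow, Ideal.map_quotient_self]

lemma isArtinianTestAlgebra_quotient_pow [IsNoetherianRing A]
    (hloc : IsLocalHom (algebraMap O A))
    (hres : Function.Surjective (IsLocalRing.residue A ∘ algebraMap O A)) (n : ℕ)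
    [IsLocalRing (A ⧸ maximalIdeal A ^ n)] :
    GaloisRep.IsArtinianTestAlgebra O (A ⧸ maximalIdeal A ^ n) := by
  have hq := isLocalHom_quotient_mk (maximalIdeal A ^ n)
  refine ⟨?_, ?_, ?_⟩
  · constructor
    intro o ho
    have : algebraMap O (A ⧸ maximalIdeal A ^ n) o
        = Ideal.Quotient.mk (maximalIdeal A ^ n) (algebraMap O A o) := rfl
    rw [this] at ho
    exact hloc.map_nonunit o (hq.map_nonunit _ ho)
  · intro y
    obtain ⟨z, rfl⟩ := IsLocalRing.residue_surjective y
    obtain ⟨a, rfl⟩ := Ideal.Quotient.mk_surjective z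
    obtain ⟨o, ho⟩ := hres (IsLocalRing.residue A a)
    refine ⟨o, ?_⟩
    have h1 : algebraMap O A o - a ∈ maximalIdeal A := by
      rw [← IsLocalRing.residue_eq_zero_iff, map_sub, sub_eq_zero]
      exact ho
    have h2 := map_mem_maximalIdeal _ hq h1
    rw [← IsLocalRing.residue_eq_zero_iff, map_sub, map_sub, sub_eq_zero] at h2
    exact h2
  · rw [isArtinianRing_iff_isNilpotent_maximalIdeal]
    exact ⟨n, maximalIdeal_quotient_pow_eq_bot n⟩

end quot

end Fermat.Agent.H81
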