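import Fermat.Agent.H81.TestAlg

set_option autoImplicit false
set_option linter.unusedSectionVars false

noncomputable section

namespace Fermat.Agent.H81

open Fermat.Agent.H78 IsLocalRing Matrix

section transfer

variable {O : Type} [CommRing O] [IsLocalRing O]
variable {A : Type} [CommRing A] [IsLocalRing A] [Algebra O A]
variable {B : Type} [CommRing B] [IsLocalRing B] [Algebra O B]

/-- Reduction to the base point descends along any algebra hom. -/
lemma red_of_comp {G : Gauge O} (φ : A →ₐ[O] B) {x : Coord → A}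
    (h : ∀ f, φ (x f) - algebraMap O B (G.basePt f) ∈ maximalIdeal B) (f : Coord) :
    x f - algebraMap O A (G.basePt f) ∈ maximalIdeal A := by
  apply mem_maximalIdeal_of_map (φ : A →+* B)
  rw [map_sub, RingHom.coe_coe, AlgHom.commutes]
  exact h f

lemma red_of_isLift {G : Gauge O} {r : GalQ → M2 A} (h : IsLift G r) {x : Coord → A}
    (hx : ∀ σ a b, r σ a b = x (σ, a, b)) (f : Coord) :
    x f - algebraMap O A (G.basePt f) ∈ maximalIdeal A := by
  obtain ⟨σ, a, b⟩ := f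
  rw [← hx]
  exact h σ a b

lemma isNormLift_homOfNormPoint {G : Gauge O} (x : Coord → A) (h : IsNormPointMod G ⊥ x)
    (hred : ∀ f, x f - algebraMap O A (G.basePt f) ∈ maximalIdeal A) :
    IsNormLift G (homOfNormPoint x h) := by
  refine ⟨fun σ a b => hred (σ, a, b), ?_, ?_, ?_⟩
  · simpa using h.col0
  · have := h.col1
    rwa [Ideal.mem_bot, sub_eq_zero] at this
  · have := h.entry
    rwa [Ideal.mem_bot, sub_eq_zero] at this

lemma isNormLift_map {G : Gauge O} (φ : A →ₐ[O] B) (hφ : IsLocalHom (φ : A →+* B))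
    {r : GalQ →* M2 A} (hr : IsNormLift G r) :
    IsNormLift G ((((φ : A →+* B).mapMatrix : M2 A →+* M2 B)).toMonoidHom.comp r) := by
  refine ⟨fun σ a b => ?_, ?_, ?_, ?_⟩
  · show (φ : A →+* B) (r σ a b) - algebraMap O B (G.lift σ a b) ∈ maximalIdeal B
    have := map_mem_maximalIdeal (φ : A →+* B) hφ (hr.red σ a b)
    rwa [map_sub, RingHom.coe_coe, AlgHom.commutes] at this
  · show (φ : A →+* B) (r G.ga 0 0) = 0
    rw [hr.col0, map_zero]
  · show (φ : A →+* B) (r G.ga 1 0) = 1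
    rw [hr.col1, map_one]
  · show (φ : A →+* B) (r G.gb G.i G.j) = _
    rw [hr.entry, RingHom.coe_coe, AlgHom.commutes]

variable (𝒟 : ∀ ⦃A : Type⦄ [CommRing A] [IsLocalRing A] [Algebra O A], GaloisRepAdic A → Prop)

lemma D_baseChange_of_defPred {G : Gauge O} (h𝒟 : GaloisRep.IsDeformationCondition O 𝒟)
    (hB : GaloisRep.IsArtinianTestAlgebra O B) (φ : A →ₐ[O] B)
    (hφ : IsLocalHom (φ : A →+* B)) (r : GalQ →* M2 A) (hr : MatCont r) {x : Coord → A}
    (hx : ∀ σ a b, r σ a b = x (σ, a, b)) (hP : defPred G 𝒟 (φ ∘ x)) :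
    𝒟 ((ofMatrix r hr).baseChangeAlong (φ : A →+* B) hφ) := by
  obtain ⟨r', hr', hx', -, hD⟩ := hP
  have hrr : r' = (((φ : A →+* B).mapMatrix : M2 A →+* M2 B)).toMonoidHom.comp r := by
    ext σ a b
    rw [hx']
    show φ (x (σ, a, b)) = (φ : A →+* B) (r σ a b)
    rw [hx]
    rfl
  subst hrr
  obtain ⟨e⟩ := baseChangeAlong_ofMatrix_isEquiv (φ : A →+* B) hφ hr hr'
  exact h𝒟.of_isEquiv hB ⟨e.symm⟩ hD

lemma defPred_comp_of_D {G : Gauge O} (h𝒟 : GaloisRep.IsDeformationCondition O 𝒟)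
    (hB : GaloisRep.IsArtinianTestAlgebra O B) (φ : A →ₐ[O] B)
    (hφ : IsLocalHom (φ : A →+* B)) (r : GalQ →* M2 A) (hr : MatCont r) {x : Coord → A}
    (hx : ∀ σ a b, r σ a b = x (σ, a, b)) (hn : IsNormLift G r)
    (hD : 𝒟 ((ofMatrix r hr).baseChangeAlong (φ : A →+* B) hφ)) :
    defPred G 𝒟 (φ ∘ x) := by
  have := hφ
  have hr' := MatCont.map (φ : A →+* B) hr
  refine ⟨_, hr', fun σ a b => ?_, isNormLift_map φ hφ hn, ?_⟩
  · show (φ : A →+* B) (r σ a b) = φ (x (σ, a, b))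
    rw [hx]
    rfl
  · exact h𝒟.of_isEquiv hB (baseChangeAlong_ofMatrix_isEquiv (φ : A →+* B) hφ hr hr') hD

end transfer

end Fermat.Agent.H81
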